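import Mathlib
import Fermat.Agent.LT.T7.B981.PairASpec

/-!
# Row LT, tower T7, node T7.L2.1.H2a.A.3 `B981.StepMC981` (sub-architect helper445, registry 2816):
# THE CUT -- Spec

OFF-MAIN.  Definitions and frozen Props only (the proved top is `StepMTop.lean`).  No hole,
nothing assumed.  ADDITIVE (new names only, suffix `445`).  Vocabulary: the second cut of
helper981 (`T7/B981/PairASpec.lean`, sha256 54ea7f02c8644374) and its imports, byte-identical.

    stepMC_of445 : (the ten leaves below) → B981.StepMC981 K K' H893.LocA893      (VERBATIM)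

## The construction

`x = M_{w,d}`, `w` an infinite place of `K'`, `d > 0`, `v = w ∩ K`.  `Y'` (over `K'`, at `w`),
`Y` (over `K`, at `v`): the sphere families (`IsSph445`), `y` the sphere family of `GL₂(ℂ)`
(`IsSphC445`).  THE STEP: `φ' = sphMean445 Y' φ`, `f' = sphMean445 Y f`, the sphere means IN THE
RIGHT VARIABLE.  The members of the average of pure tensors of `(φ', f')` are the sphere means of
the members of `(φ, f)` = the pure tensors with the component at `w` (resp. `v`) replaced by its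
local sphere mean `sphMeanC445 y`.

## The leaves (ONE field unless said; every leaf is TRUE for all `d`, only `SphOpC445` uses `0 < d`)

* `SphExC445 K`, `SphExLocC445` [S]: the sphere families exist.
* `SphTestC445 K` [L]: the sphere mean of a test function is a test function.
* `SphEKC445 K` [M]: ... Eisenstein-killing with Eisenstein-killing adjoint.
* `SphSuppC445 K` [S]: ... Iwahori-supported in a compact set.
* `SphOpC445 K` [L]: `R(sphMean φ) χ = m_w(d) R(φ) χ` on the eigenfunctions.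
* `SphPureC445 K` [M]: the sphere mean of a pure tensor is the pure tensor with the local sphere
  mean at `w`.
* `SphAvgC445 K` [M]: the sphere mean commutes with averages over a compact parameter space
  (Fubini), joint continuity and common compact support are preserved.
* `SphArchC445` [M-L] (`GL₂(ℂ)` only): the local sphere mean preserves continuity, compact
  support, invariance under complex conjugation and bi-`U(2)`-invariance.
* `SphConvC445` [L-XL] (`GL₂(ℂ)` only): the iterated convolution with ONE factor replaced by its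
  local sphere mean is the local sphere mean of the iterated convolution (the bi-`U(2)`-invariant
  functions commute).
* `ArchFibreC445 K K'` [M]: an injective enumeration of length `ℓ` of places over `v` exhausts
  the places over `v`.

FALSITY CHECKS (helper445).
(a) `SphOpC445`: `R(φ') χ (x) = ∫ φ'(h) χ(x h) = ∫∫ sin β ∫ φ(h) χ(x h Y⁻¹)` (Fubini, right
invariance of `μ`) `= 4π ∫ φ(h) χ(x h a_d⁻¹)` (`χ` right invariant under `U(2)_w`;
`Y = k a_d`) and for EVERY `(α, β)`: `∫ φ(h) χ(x h a_d⁻¹) = ∫ φ(h) χ(x h k a_d⁻¹)` for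
`k ∈ U(2)_w` (`φ` right invariant under `U(2)_w`, right invariance of `μ`); with
`k = Y(α,β) a_d⁻¹ W`, `W = rotY π`, `a_d W a_d = W` (`torus_rotY_pi770`):
`k a_d⁻¹ = Y(α,β) W`, so `= ∫ φ(h) χ(x h Y(α,β))`; integrate against `sin β`:
`4π ∫ φ(h) χ(x h a_d⁻¹) = ∫ φ(h) (M_d χ)(x h) = m(d) R(φ) χ (x)` (`IsEigFn.mean`, `0 < d`).
NO property of the measure beyond `IsFrame.right_inv`, no unitarity.
(b) `SphConvC445`: `M(A ⋆ B) = A ⋆ M B` is Fubini; `M A ⋆ B = A ⋆ M B` for `A` right invariant,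
`B` bi-invariant under `U(2)`: `(M A ⋆ B)(g) = 4π ∫ A(x) B(a_d x⁻¹ g)` (right invariance of the
Haar measure of `GL₂(ℂ)`: `T6/H8/Unimod.lean rightInv_GL2C8`; `B` left invariant) and
`4π B(a_d h)` may be replaced by `∫∫ B(a_d k(α,β)⁻¹ h) sin β` under `∫ A(x) … dx`
(`A` right invariant), `k(α,β)⁻¹ = rotY(-β) rotZ(α)`; `B(m) = B(mᵀ)` (Cartan decomposition,
`SubCartanInf429`: `U(2)` is stable under transposition), so
`∫∫ B(a_d rotY(-β) rotZ(α) h) sin β = (M B)(hᵀ) = (M B)(h)` (`M B` is bi-invariant: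
`SphArchC445`).  The induction on the number of factors uses that the iterated convolutions
are continuous with compact support and bi-invariant.
(c) `SphArchC445`, conjugation: `conj (y(α,β)) = y(-α,β)`, `y(α - 2π, β) = - y(α,β)`, `-1 ∈ U(2)`.
Right invariance of `M Φ`: `T2/H429 SubS2Rot429` (closed in T2).
(d) `SphTestC445`, smoothness: `t ↦ ∫∫ φ(g h(t) Y(α,β)) sin β`: the family
`(t, α, β) ↦ h(t) Y(α,β)` is a smooth family at infinity with `n + 2` parameters, so the
integrand is smooth in `(t, α, β)` (`IsSmoothAtInf φ`); parametric integrals over a box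
(`contDiff_parametric_primitive_of_contDiff`).  Right invariance under `U(2)_w`: `SubS2Rot429`.
(e) The places: `K` totally complex, so every infinite place of `K'` is complex (proved in the
top).  At a real place `IsSph445` is void.
-/

set_option autoImplicit false

open AutomorphicForm IsDedekindDomain NumberField MeasureTheory
open scoped ComplexConjugate

noncomputable section

namespace Fermat.Agent.LT.T7.H445

open Fermat.Agent.LT.H556 Fermat.Agent.LT.H556.A0 Fermat.Agent.LT.T7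
open Fermat.Agent.LT.T7.H305 Fermat.Agent.LT.T7.H893

attribute [local instance] Fermat.Agent.LT.T5.instMeasurableSpaceG

/-! ## 1. Vocabulary -/

section Vocab

variable {K : Type} [Field K] [NumberField K]

/-- `Y` is the sphere family of radius `d` at the infinite place `w` (the families of
`T7.MeanEig`). -/
def IsSph445 (w : InfinitePlace K) (d : ℝ) (Y : ℝ → ℝ → G K) : Prop :=
  ∀ α β : ℝ, IsLocalAtInf w (Y α β) ∧ infComp w (Y α β) = rotZ α * rotY β * torus d

/-- `y` is the sphere family of radius `d` of `GL₂(ℂ)`. -/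
def IsSphC445 (d : ℝ) (y : ℝ → ℝ → GL (Fin 2) ℂ) : Prop :=
  ∀ α β : ℝ, ((y α β : GL (Fin 2) ℂ) : Matrix (Fin 2) (Fin 2) ℂ) = rotZ α * rotY β * torus d

/-- THE SPHERE MEAN IN THE RIGHT VARIABLE: `g ↦ ∫∫ φ(g Y(α,β)) sin β dβ dα`. -/
def sphMean445 (Y : ℝ → ℝ → G K) (φ : G K → ℂ) : G K → ℂ :=
  fun g => ∫ α in (0 : ℝ)..(2 * Real.pi), ∫ β in (0 : ℝ)..Real.pi,
    φ (g * Y α β) * ((Real.sin β : ℝ) : ℂ)

/-- THE LOCAL SPHERE MEAN on `GL₂(ℂ)`: `g ↦ ∫∫ Φ(g y(α,β)) sin β dβ dα`. -/
def sphMeanC445 (y : ℝ → ℝ → GL (Fin 2) ℂ) (Φ : GL (Fin 2) ℂ → ℂ) : GL (Fin 2) ℂ → ℂ :=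
  fun g => ∫ α in (0 : ℝ)..(2 * Real.pi), ∫ β in (0 : ℝ)..Real.pi,
    Φ (g * y α β) * ((Real.sin β : ℝ) : ℂ)

open Classical in
/-- The archimedean components with the component at `w` replaced by `Ψ`. -/
def updArch445 (F : InfinitePlace K → GL (Fin 2) ℂ → ℂ) (w : InfinitePlace K)
    (Ψ : GL (Fin 2) ℂ → ℂ) : InfinitePlace K → GL (Fin 2) ℂ → ℂ :=
  fun w' => if w' = w then Ψ else F w'

/-- Bi-invariance under `U(2)` (the form of `H893.ArchOk893`). -/
def IsBiU445 (Φ : GL (Fin 2) ℂ → ℂ) : Prop :=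
  ∀ k₁ k₂ g : GL (Fin 2) ℂ,
    (k₁ : Matrix (Fin 2) (Fin 2) ℂ) * (k₁ : Matrix (Fin 2) (Fin 2) ℂ).conjTranspose = 1 →
    (k₂ : Matrix (Fin 2) (Fin 2) ℂ) * (k₂ : Matrix (Fin 2) (Fin 2) ℂ).conjTranspose = 1 →
    Φ (k₁ * g * k₂) = Φ g

/-- The properties of an archimedean component in `H893.ArchOk893`: continuous, compact
support, invariant under complex conjugation, bi-invariant under `U(2)`. -/
def IsArchGood445 (Φ : GL (Fin 2) ℂ → ℂ) : Prop :=
  Continuous Φ ∧ HasCompactSupport Φ ∧ (∀ g : GL (Fin 2) ℂ, Φ (conjGL305 g) = Φ g) ∧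
    IsBiU445 Φ

end Vocab

/-! ## 2. The leaves -/

section OneField

variable (K : Type) [Field K] [NumberField K]

/-- **LEAF M.0a = SPH-EX [S].**  The sphere family exists at a complex place (assets:
`T2/H878/CommConvMean.lean locC878`, `T2/H291 ZsT291`, `T2/H322 zLoc322`). -/
def SphExC445 : Prop :=
  ∀ w : InfinitePlace K, w.IsComplex → ∀ d : ℝ, ∃ Y : ℝ → ℝ → G K, IsSph445 w d Y

/-- **LEAF M.1 = SPH-TEST [L].**  The sphere mean of a test function (trivial type, any level)
is a test function.  Continuity and compact support: parametric integral over a compact box,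
support in `supp φ · {Y(α,β)⁻¹}`; smooth at infinity: header (d); `U(𝔫)`: the elements of the
level group commute with `Y` (trivial at infinity); `K_∞`: left clear, right at `w' ≠ w`
commutation, at `w`: `SubS2Rot429` (rotation invariance of `sin β dβ dα`). -/
def SphTestC445 : Prop :=
  ∀ (𝔫 : Ideal (𝓞 K)) (w : InfinitePlace K), w.IsComplex →
    ∀ (d : ℝ) (Y : ℝ → ℝ → G K), IsSph445 w d Y →
    ∀ φ : G K → ℂ, T5.IsTestFn 𝔫 T5.trivType φ →
      T5.IsTestFn 𝔫 T5.trivType (sphMean445 Y φ)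

/-- **LEAF M.2 = SPH-EK [M].**  The sphere mean of an Eisenstein-killing test function with
Eisenstein-killing adjoint is Eisenstein-killing with Eisenstein-killing adjoint.
`R(M φ) Ψ (x) = ∫∫ sin β R(φ) (Ψ(· Y⁻¹)) (x)` (Fubini, `IsFrame.right_inv`), `Ψ(· Y⁻¹)` is
Borel-invariant (the ray generator is central); `(M φ)* = ∫∫ sin β φ*(Y⁻¹ ·)`,
`R(φ*(Y⁻¹ ·)) Ψ (x) = R(φ*) Ψ (x Y)` (left invariance). -/
def SphEKC445 : Prop :=
  ∀ R : Frame5 K, IsFrame5 R →
    ∀ (𝔫 : Ideal (𝓞 K)) (w : InfinitePlace K), w.IsComplex →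
    ∀ (d : ℝ) (Y : ℝ → ℝ → G K), IsSph445 w d Y →
    ∀ φ : G K → ℂ, T5.IsTestFn 𝔫 T5.trivType φ →
      T5.IsEK R.μ φ → T5.IsEK R.μ (T5.adjointFn φ) →
      T5.IsEK R.μ (sphMean445 Y φ) ∧ T5.IsEK R.μ (T5.adjointFn (sphMean445 Y φ))

/-- **LEAF M.3 = SPH-SUPP [S].**  The sphere mean of a function which is Iwahori-supported in a
compact set is Iwahori-supported in a compact set (`C' = C · {Y(α,β)⁻¹ : (α,β) in the box}`;
`Y` is trivial at the finite places). -/
def SphSuppC445 : Prop :=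
  ∀ (w : InfinitePlace K), w.IsComplex → ∀ (d : ℝ) (Y : ℝ → ℝ → G K), IsSph445 w d Y →
    ∀ (l : ℕ) (o : ℕ → HeightOneSpectrum (𝓞 K)) (C : Set (G K)) (φ : G K → ℂ),
      IsCompact C → T5.H32.IsIwSupported32 l o C φ →
      ∃ C' : Set (G K), IsCompact C' ∧ T5.H32.IsIwSupported32 l o C' (sphMean445 Y φ)

/-- **LEAF M.4 = SPH-OP [L].**  `R(M φ) χ = m_w(d) R(φ) χ` for a test function `φ` and an
eigenfunction `χ` (any level, any orbit).  Header (a). -/
def SphOpC445 : Prop :=
  ∀ R : Frame5 K, IsFrame5 R →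
    ∀ (𝔫 : Ideal (𝓞 K)) (w : InfinitePlace K), w.IsComplex →
    ∀ (d : ℝ), 0 < d → ∀ (Y : ℝ → ℝ → G K), IsSph445 w d Y →
    ∀ φ : G K → ℂ, T5.IsTestFn 𝔫 T5.trivType φ →
    ∀ (𝔫' : Ideal (𝓞 K)) (l : ℕ) (o : ℕ → HeightOneSpectrum (𝓞 K)) (χ : G K → ℂ)
      (C : EigData K), IsEigFn 𝔫' R.r l o χ C →
      ∀ x : G K, T5.Rconv R.μ (sphMean445 Y φ) χ x = C.m w d * T5.Rconv R.μ φ χ x

/-- **LEAF M.5 = SPH-PURE [M].**  The sphere mean of a pure tensor is the pure tensor with the
component at `w` replaced by its local sphere mean (NO hypothesis on the components: the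
integral is linear; `OutT305`, the finite components and the components at `w' ≠ w` of `h Y`
are those of `h`; `infGL305 w (Y α β) = y α β`). -/
def SphPureC445 : Prop :=
  ∀ (w : InfinitePlace K), w.IsComplex → ∀ (d : ℝ) (Y : ℝ → ℝ → G K), IsSph445 w d Y →
    ∀ y : ℝ → ℝ → GL (Fin 2) ℂ, IsSphC445 d y →
    ∀ (T : Finset (HeightOneSpectrum (𝓞 K)))
      (f₀ : ∀ v : HeightOneSpectrum (𝓞 K), GL (Fin 2) (v.adicCompletion K) → ℂ)
      (F : InfinitePlace K → GL (Fin 2) ℂ → ℂ) (h : G K),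
      sphMean445 Y (pure305 T f₀ F) h
        = pure305 T f₀ (updArch445 F w (sphMeanC445 y (F w))) h

/-- **LEAF M.6 = SPH-AVG [M].**  For a jointly continuous family `ψ a`, `a ∈ Ω` (compact,
Hausdorff, second countable, finite measure), supported in one compact set: the sphere means
are jointly continuous and supported in one compact set, and the sphere mean of the average is
the average of the sphere means (Fubini). -/
def SphAvgC445 : Prop :=
  ∀ (w : InfinitePlace K), w.IsComplex → ∀ (d : ℝ) (Y : ℝ → ℝ → G K), IsSph445 w d Y →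
    ∀ (Ω : Type) [TopologicalSpace Ω] [CompactSpace Ω] [T2Space Ω]
      [SecondCountableTopology Ω] [MeasurableSpace Ω] [BorelSpace Ω]
      (ν : Measure Ω) [IsFiniteMeasure ν] (ψ : Ω → G K → ℂ),
      Continuous (fun p : Ω × G K => ψ p.1 p.2) →
      (∃ C : Set (G K), IsCompact C ∧ ∀ (a : Ω) (h : G K), ψ a h ≠ 0 → h ∈ C) →
      Continuous (fun p : Ω × G K => sphMean445 Y (ψ p.1) p.2) ∧
        (∃ C : Set (G K), IsCompact C ∧
          ∀ (a : Ω) (h : G K), sphMean445 Y (ψ a) h ≠ 0 → h ∈ C) ∧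
        ∀ h : G K, sphMean445 Y (fun h' => ∫ a, ψ a h' ∂ν) h = ∫ a, sphMean445 Y (ψ a) h ∂ν

end OneField

section Local

/-- **LEAF M.0b = SPH-EX-LOC [S].**  The sphere family of `GL₂(ℂ)` exists (the determinant of
`rotZ α * rotY β * torus d` is `1`). -/
def SphExLocC445 : Prop :=
  ∀ d : ℝ, ∃ y : ℝ → ℝ → GL (Fin 2) ℂ, IsSphC445 d y

/-- **LEAF M.7 = SPH-ARCH [M-L] (`GL₂(ℂ)` only).**  The local sphere mean preserves the
properties of the archimedean components.  Header (c). -/
def SphArchC445 : Prop :=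
  ∀ (d : ℝ) (y : ℝ → ℝ → GL (Fin 2) ℂ), IsSphC445 d y →
    ∀ Φ : GL (Fin 2) ℂ → ℂ, IsArchGood445 Φ → IsArchGood445 (sphMeanC445 y Φ)

/-- **LEAF M.8 = SPH-CONV [L-XL] (`GL₂(ℂ)` only).**  For good components `Ψ 0, …, Ψ N` and
`j₀ ≤ N`: the iterated convolution (`H305.convL305`, left nested) with `Ψ j₀` replaced by its
local sphere mean is the local sphere mean of the iterated convolution.  Header (b). -/
def SphConvC445 : Prop :=
  ∀ μc : @Measure (GL (Fin 2) ℂ) (borel _), @Measure.IsHaarMeasure _ _ _ (borel _) μc →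
    ∀ (d : ℝ) (y : ℝ → ℝ → GL (Fin 2) ℂ), IsSphC445 d y →
    ∀ (N : ℕ) (Ψ : ℕ → GL (Fin 2) ℂ → ℂ), (∀ j : ℕ, j ≤ N → IsArchGood445 (Ψ j)) →
    ∀ j₀ : ℕ, j₀ ≤ N →
      convL305 μc (fun j => if j = j₀ then sphMeanC445 y (Ψ j₀) else Ψ j) N
        = sphMeanC445 y (convL305 μc Ψ N)

end Local

section TwoFields

variable (K K' : Type) [Field K] [NumberField K] [Field K'] [NumberField K'] [Algebra K K']

/-- **LEAF M.9 = ARCH-FIBRE [M].**  `K'/K` cyclic of prime degree `ℓ`, `K` totally complex: an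
enumeration `w 0, …, w (ℓ-1)` without repetition of places of `K'` over the infinite place `v`
exhausts the places over `v` (there are at most `[K' : K]` places over `v`). -/
def ArchFibreC445 : Prop :=
  ∀ ℓ : ℕ, IsCycExt K K' ℓ → TotCplx K →
    ∀ (v : InfinitePlace K) (w : ℕ → InfinitePlace K'),
      (∀ j : ℕ, (w j).comap (algebraMap K K') = v) →
      (∀ j j' : ℕ, j < ℓ → j' < ℓ → w j = w j' → j = j') →
      ∀ w' : InfinitePlace K', w'.comap (algebraMap K K') = v → ∃ j : ℕ, j < ℓ ∧ w j = w'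

end TwoFields

/-! ## Appendix: the equation lemmas of the definitions of this file are realised HERE -/

theorem eqns_realised_stepMSpec445 : True := by
  have _h0_0 := @IsSph445.eq_1
  have _h0_1 := @IsSph445.eq_def
  have _h0_2 := @IsSph445.eq_unfold
  have _h1_0 := @IsSphC445.eq_1
  have _h1_1 := @IsSphC445.eq_def
  have _h1_2 := @IsSphC445.eq_unfold
  have _h2_0 := @sphMean445.eq_1
  have _h2_1 := @sphMean445.eq_def
  have _h2_2 := @sphMean445.eq_unfold
  have _h3_0 := @sphMeanC445.eq_1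
  have _h3_1 := @sphMeanC445.eq_def
  have _h3_2 := @sphMeanC445.eq_unfold
  have _h4_0 := @updArch445.eq_1
  have _h4_1 := @updArch445.eq_def
  have _h4_2 := @updArch445.eq_unfold
  have _h5_0 := @IsBiU445.eq_1
  have _h5_1 := @IsBiU445.eq_def
  have _h5_2 := @IsBiU445.eq_unfold
  have _h6_0 := @IsArchGood445.eq_1
  have _h6_1 := @IsArchGood445.eq_def
  have _h6_2 := @IsArchGood445.eq_unfold
  have _h7_0 := @SphExC445.eq_1
  have _h7_1 := @SphExC445.eq_def
  have _h7_2 := @SphExC445.eq_unfold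
  have _h8_0 := @SphTestC445.eq_1
  have _h8_1 := @SphTestC445.eq_def
  have _h8_2 := @SphTestC445.eq_unfold
  have _h9_0 := @SphEKC445.eq_1
  have _h9_1 := @SphEKC445.eq_def
  have _h9_2 := @SphEKC445.eq_unfold
  have _h10_0 := @SphSuppC445.eq_1
  have _h10_1 := @SphSuppC445.eq_def
  have _h10_2 := @SphSuppC445.eq_unfold
  have _h11_0 := @SphOpC445.eq_1
  have _h11_1 := @SphOpC445.eq_def
  have _h11_2 := @SphOpC445.eq_unfold
  have _h12_0 := @SphPureC445.eq_1
  have _h12_1 := @SphPureC445.eq_def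
  have _h12_2 := @SphPureC445.eq_unfold
  have _h13_0 := @SphAvgC445.eq_1
  have _h13_1 := @SphAvgC445.eq_def
  have _h13_2 := @SphAvgC445.eq_unfold
  have _h14_0 := @SphExLocC445.eq_1
  have _h14_1 := @SphExLocC445.eq_def
  have _h14_2 := @SphExLocC445.eq_unfold
  have _h15_0 := @SphArchC445.eq_1
  have _h15_1 := @SphArchC445.eq_def
  have _h15_2 := @SphArchC445.eq_unfold
  have _h16_0 := @SphConvC445.eq_1
  have _h16_1 := @SphConvC445.eq_def
  have _h16_2 := @SphConvC445.eq_unfold
  have _h17_0 := @ArchFibreC445.eq_1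
  have _h17_1 := @ArchFibreC445.eq_def
  have _h17_2 := @ArchFibreC445.eq_unfold
  trivial

end Fermat.Agent.LT.T7.H445

end
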