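import Mathlib
import Fermat.Agent.LT.T7.H445.StepMSpec

/-!
# Row LT, tower T7, node T7.L2.1.H2a.A.3 `B981.StepMC981` (sub-architect helper445, registry 2816):
# THE CUT -- proved top

OFF-MAIN.  `stepMC_of445 : (the leaves of `StepMSpec.lean`) → B981.StepMC981 K K' H893.LocA893`
(VERBATIM, the form of record `LA = H893.LocA893`).  No hole, nothing assumed.
-/

set_option autoImplicit false

open AutomorphicForm IsDedekindDomain NumberField MeasureTheory
open scoped ComplexConjugate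

noncomputable section

namespace Fermat.Agent.LT.T7.H445

open Fermat.Agent.LT.H556 Fermat.Agent.LT.H556.A0 Fermat.Agent.LT.T7
open Fermat.Agent.LT.T7.H305 Fermat.Agent.LT.T7.H893

attribute [local instance] Fermat.Agent.LT.T5.instMeasurableSpaceG

/-- The iterated convolution up to `N` depends on the factors `0, …, N` only. -/
theorem convL305_congr445 (μc : @Measure (GL (Fin 2) ℂ) (borel _))
    {Ψ Ψ' : ℕ → GL (Fin 2) ℂ → ℂ} (N : ℕ) (h : ∀ j : ℕ, j ≤ N → Ψ j = Ψ' j) :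
    convL305 μc Ψ N = convL305 μc Ψ' N := by
  induction N with
  | zero =>
    show Ψ 0 = Ψ' 0
    exact h 0 le_rfl
  | succ k ih =>
    show @T6.convInt _ _ (borel _) μc (convL305 μc Ψ k) (Ψ (k + 1))
      = @T6.convInt _ _ (borel _) μc (convL305 μc Ψ' k) (Ψ' (k + 1))
    rw [ih (fun j hj => h j (Nat.le_succ_of_le hj)), h (k + 1) le_rfl]

section Upd

variable {K : Type} [Field K] [NumberField K]

theorem updArch445_same (F : InfinitePlace K → GL (Fin 2) ℂ → ℂ) (w : InfinitePlace K)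
    (Ψ : GL (Fin 2) ℂ → ℂ) : updArch445 F w Ψ w = Ψ := by
  classical
  show (if w = w then Ψ else F w) = Ψ
  rw [if_pos rfl]

theorem updArch445_ne (F : InfinitePlace K → GL (Fin 2) ℂ → ℂ) (w : InfinitePlace K)
    (Ψ : GL (Fin 2) ℂ → ℂ) {w' : InfinitePlace K} (h : w' ≠ w) : updArch445 F w Ψ w' = F w' := by
  classical
  show (if w' = w then Ψ else F w') = F w'
  rw [if_neg h]

/-- The components with the component at `w` replaced by its local sphere mean are good. -/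
theorem updArch445_good (hArch : SphArchC445) {d : ℝ} {y : ℝ → ℝ → GL (Fin 2) ℂ}
    (hy : IsSphC445 d y) (F : InfinitePlace K → GL (Fin 2) ℂ → ℂ) (w : InfinitePlace K)
    (hF : ∀ w' : InfinitePlace K, IsArchGood445 (F w')) (w' : InfinitePlace K) :
    IsArchGood445 (updArch445 F w (sphMeanC445 y (F w)) w') := by
  by_cases h : w' = w
  · subst h
    rw [updArch445_same]
    exact hArch d y hy _ (hF w')
  · rw [updArch445_ne F w _ h]
    exact hF w'

end Upd

variable (K K' : Type) [Field K] [NumberField K] [Field K'] [NumberField K'] [Algebra K K']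

/-- The components of a pair with `H893.ArchOk893` are good. -/
theorem archGood_of_archOk445 {D : CompData K K'} {μc : @Measure (GL (Fin 2) ℂ) (borel _)}
    {n : HeightOneSpectrum (𝓞 K') → ℕ} {m : HeightOneSpectrum (𝓞 K) → ℕ}
    {φ₀ : ∀ w : HeightOneSpectrum (𝓞 K'), GL (Fin 2) (w.adicCompletion K') → ℂ}
    {Φ : InfinitePlace K' → GL (Fin 2) ℂ → ℂ}
    {f₀ : ∀ v : HeightOneSpectrum (𝓞 K), GL (Fin 2) (v.adicCompletion K) → ℂ}
    {F : InfinitePlace K → GL (Fin 2) ℂ → ℂ} (h : ArchOk893 D μc n m φ₀ Φ f₀ F) :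
    (∀ w : InfinitePlace K', IsArchGood445 (Φ w)) ∧ ∀ v : InfinitePlace K, IsArchGood445 (F v) :=
  ⟨fun w => ⟨(h.1.arch_up w).1, (h.1.arch_up w).2.1, (h.1.arch_up w).2.2,
      fun k₁ k₂ g h₁ h₂ => h.2.1 w k₁ k₂ g h₁ h₂⟩,
    fun v => ⟨(h.1.arch_down v).1, (h.1.arch_down v).2.1, (h.1.arch_down v).2.2,
      fun k₁ k₂ g h₁ h₂ => h.2.2 v k₁ k₂ g h₁ h₂⟩⟩

/-- **`H893.ArchOk893` is preserved by the local sphere means at `w` and at `v = w ∩ K`.** -/
theorem archOk_step445 (hArch : SphArchC445) (hConv : SphConvC445)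
    (hFib : ArchFibreC445 K K') {ℓ : ℕ} (hcyc : IsCycExt K K' ℓ) (htot : TotCplx K)
    {D : CompData K K'} (hD : D.l = ℓ)
    {μc : @Measure (GL (Fin 2) ℂ) (borel _)} (hμc : @Measure.IsHaarMeasure _ _ _ (borel _) μc)
    {n : HeightOneSpectrum (𝓞 K') → ℕ} {m : HeightOneSpectrum (𝓞 K) → ℕ}
    {φ₀ : ∀ w : HeightOneSpectrum (𝓞 K'), GL (Fin 2) (w.adicCompletion K') → ℂ}
    {Φ : InfinitePlace K' → GL (Fin 2) ℂ → ℂ}
    {f₀ : ∀ v : HeightOneSpectrum (𝓞 K), GL (Fin 2) (v.adicCompletion K) → ℂ}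
    {F : InfinitePlace K → GL (Fin 2) ℂ → ℂ} (h : ArchOk893 D μc n m φ₀ Φ f₀ F)
    {d : ℝ} {y : ℝ → ℝ → GL (Fin 2) ℂ} (hy : IsSphC445 d y) (w : InfinitePlace K') :
    ArchOk893 D μc n m φ₀ (updArch445 Φ w (sphMeanC445 y (Φ w))) f₀
      (updArch445 F (w.comap (algebraMap K K'))
        (sphMeanC445 y (F (w.comap (algebraMap K K'))))) := by
  obtain ⟨hgΦ, hgF⟩ := archGood_of_archOk445 K K' h
  have hgΦ' := updArch445_good hArch hy Φ w hgΦ
  have hgF' := updArch445_good hArch hy F (w.comap (algebraMap K K')) hgF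
  refine ⟨⟨h.1.inv_up, h.1.inv_down, fun w' => ⟨(hgΦ' w').1, (hgΦ' w').2.1, (hgΦ' w').2.2.1⟩,
    fun v' => ⟨(hgF' v').1, (hgF' v').2.1, (hgF' v').2.2.1⟩, h.1.inert, h.1.split, ?_⟩,
    fun w' k₁ k₂ g h₁ h₂ => (hgΦ' w').2.2.2 k₁ k₂ g h₁ h₂,
    fun v' k₁ k₂ g h₁ h₂ => (hgF' v').2.2.2 k₁ k₂ g h₁ h₂⟩
  intro v' ws hover hinj
  have hold := h.1.arch v' ws hover hinj
  rw [hD] at hinj hold ⊢
  by_cases hv : v' = w.comap (algebraMap K K')
  · subst hv
    rw [updArch445_same]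
    obtain ⟨j₀, hj₀, hw₀⟩ := hFib ℓ hcyc htot _ ws hover hinj w rfl
    have hj₀' : j₀ ≤ ℓ - 1 := Nat.le_sub_one_of_lt hj₀
    have hgood : ∀ j : ℕ, j ≤ ℓ - 1 → IsArchGood445 (Φ (ws j)) := fun j _ => hgΦ (ws j)
    have key := hConv μc hμc d y hy (ℓ - 1) (fun j => Φ (ws j)) hgood j₀ hj₀'
    rw [hold, ← key]
    refine convL305_congr445 μc (ℓ - 1) fun j hj => ?_
    have hjl : j < ℓ := lt_of_le_of_lt hj (Nat.sub_lt (lt_of_le_of_lt (Nat.zero_le _) hj₀)
      Nat.one_pos)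
    by_cases hjj : j = j₀
    · subst hjj
      show _ = updArch445 Φ w (sphMeanC445 y (Φ w)) (ws j)
      rw [if_pos rfl, hw₀, updArch445_same]
    · show _ = updArch445 Φ w (sphMeanC445 y (Φ w)) (ws j)
      rw [if_neg hjj]
      have hne : ws j ≠ w := fun hEq => hjj (hinj j j₀ hjl hj₀ (hEq.trans hw₀.symm))
      rw [updArch445_ne Φ w _ hne]
  · rw [updArch445_ne F _ _ hv, hold]
    refine convL305_congr445 μc (ℓ - 1) fun j _ => ?_
    have hne : ws j ≠ w := fun hEq => hv (by rw [← hover j, hEq])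
    show _ = updArch445 Φ w (sphMeanC445 y (Φ w)) (ws j)
    rw [updArch445_ne Φ w _ hne]

/-- **THE TOP OF THE CUT: `B981.StepMC981` for the local shape of record `H893.LocA893`.** -/
theorem stepMC_of445
    (hEx : SphExC445 K) (hEx' : SphExC445 K') (hExL : SphExLocC445)
    (hTest : SphTestC445 K) (hTest' : SphTestC445 K')
    (hEK : SphEKC445 K) (hEK' : SphEKC445 K')
    (hSupp : SphSuppC445 K) (hSupp' : SphSuppC445 K')
    (hOp : SphOpC445 K) (hOp' : SphOpC445 K')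
    (hPure : SphPureC445 K) (hPure' : SphPureC445 K')
    (hAvg : SphAvgC445 K) (hAvg' : SphAvgC445 K')
    (hArch : SphArchC445) (hConv : SphConvC445) (hFib : ArchFibreC445 K K') :
    B981.StepMC981 K K' H893.LocA893 := by
  intro ℓ hcyc _ htot Φe B hB _ 𝔫 _ μc hμc T₀ n n₀ m _ x hx hout φ f hgood
  obtain ⟨w, d, rfl⟩ := hx
  have hd : 0 < d := hout
  have hvC : (w.comap (algebraMap K K')).IsComplex := htot _
  have hwC : w.IsComplex := by
    rw [← InfinitePlace.not_isReal_iff_isComplex]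
    intro hr
    exact (InfinitePlace.not_isReal_iff_isComplex.mpr hvC) (hr.comap _)
  obtain ⟨Y', hY'⟩ := hEx' w hwC d
  obtain ⟨Y, hY⟩ := hEx (w.comap (algebraMap K K')) hvC d
  obtain ⟨y, hy⟩ := hExL d
  obtain ⟨Ω, iT, iC, iT2, iSC, iM, iB, ν, iF, T, T', φ₀, Φc, f₀, F, h1, h2, h3, h4, h5,
    h6, h7, h8, h9⟩ := hgood.shape
  -- the members upstairs and downstairs
  have eU : ∀ (a : Ω) (h : G K'),
      pure305 (T' a) (φ₀ a) (updArch445 (Φc a) w (sphMeanC445 y (Φc a w))) h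
        = sphMean445 Y' (pure305 (T' a) (φ₀ a) (Φc a)) h := fun a h =>
    (hPure' w hwC d Y' hY' y hy (T' a) (φ₀ a) (Φc a) h).symm
  have eD : ∀ (a : Ω) (h : G K),
      pure305 (T a) (f₀ a) (updArch445 (F a) (w.comap (algebraMap K K'))
          (sphMeanC445 y (F a (w.comap (algebraMap K K'))))) h
        = sphMean445 Y (pure305 (T a) (f₀ a) (F a)) h := fun a h =>
    (hPure _ hvC d Y hY y hy (T a) (f₀ a) (F a) h).symm
  have h5' : Continuous (fun p : Ω × G K => pure305 (T p.1) (f₀ p.1) (F p.1) p.2) := by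
    simpa only [one_mul] using h5
  obtain ⟨aU1, aU2, aU3⟩ := hAvg' w hwC d Y' hY' Ω ν
    (fun a => pure305 (T' a) (φ₀ a) (Φc a)) h4 h6
  obtain ⟨aD1, aD2, aD3⟩ := hAvg _ hvC d Y hY Ω ν
    (fun a => pure305 (T a) (f₀ a) (F a)) h5' h7
  have hφ : φ = fun h => ∫ a, pure305 (T' a) (φ₀ a) (Φc a) h ∂ν := funext h8
  have hf : f = fun h => ∫ a, pure305 (T a) (f₀ a) (F a) h ∂ν := by
    funext h
    rw [h9 h]
    simp only [one_mul]
  refine ⟨(sphMean445 Y' φ, sphMean445 Y f), ⟨?_, ?_, ?_, ?_, ?_, ?_, ?_⟩, ⟨?_, ?_⟩⟩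
  · exact hTest' _ w hwC d Y' hY' φ hgood.up_test
  · exact hEK' B.R' hB.frame' _ w hwC d Y' hY' φ hgood.up_test hgood.up_ek.1 hgood.up_ek.2
  · exact hTest _ _ hvC d Y hY f hgood.dn_test
  · exact hEK B.R hB.frame _ _ hvC d Y hY f hgood.dn_test hgood.dn_ek.1 hgood.dn_ek.2
  · obtain ⟨C, hC, hs⟩ := hgood.up_supp
    exact hSupp' w hwC d Y' hY' ℓ B.o C φ hC hs
  · obtain ⟨C, hC, hs⟩ := hgood.dn_supp
    exact hSupp _ hvC d Y hY 1 (fun _ => B.u) C f hC hs
  · -- the local shape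
    refine ⟨Ω, iT, iC, iT2, iSC, iM, iB, ν, iF, T, T', φ₀,
      fun a => updArch445 (Φc a) w (sphMeanC445 y (Φc a w)), f₀,
      fun a => updArch445 (F a) (w.comap (algebraMap K K'))
        (sphMeanC445 y (F a (w.comap (algebraMap K K')))), ?_, ?_, ?_, ?_, ?_, ?_, ?_, ?_, ?_⟩
    · intro a
      obtain ⟨hA1, hA2, hA3, hA4⟩ := (h1 a).2.2
      exact ⟨(h1 a).1, (h1 a).2.1, hA1, hA2, hA3,
        archOk_step445 K K' hArch hConv hFib hcyc htot hB.deg hμc hA4 hy w⟩
    · intro a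
      have := hTest' _ w hwC d Y' hY' _ (h2 a)
      rwa [show sphMean445 Y' (pure305 (T' a) (φ₀ a) (Φc a))
        = pure305 (T' a) (φ₀ a) (updArch445 (Φc a) w (sphMeanC445 y (Φc a w))) from
        funext fun h => (eU a h).symm] at this
    · intro a
      have h3a : T5.IsTestFn 𝔫 T5.trivType (pure305 (T a) (f₀ a) (F a)) := by
        have := h3 a
        simpa only [one_mul] using this
      have := hTest _ _ hvC d Y hY _ h3a
      rw [show sphMean445 Y (pure305 (T a) (f₀ a) (F a))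
        = pure305 (T a) (f₀ a) (updArch445 (F a) (w.comap (algebraMap K K'))
          (sphMeanC445 y (F a (w.comap (algebraMap K K'))))) from
        funext fun h => (eD a h).symm] at this
      simpa only [one_mul] using this
    · have : (fun p : Ω × G K' => pure305 (T' p.1) (φ₀ p.1)
          (updArch445 (Φc p.1) w (sphMeanC445 y (Φc p.1 w))) p.2)
          = fun p : Ω × G K' => sphMean445 Y' (pure305 (T' p.1) (φ₀ p.1) (Φc p.1)) p.2 :=
        funext fun p => eU p.1 p.2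
      rw [this]
      exact aU1
    · have : (fun p : Ω × G K => (1 : ℂ) * pure305 (T p.1) (f₀ p.1)
          (updArch445 (F p.1) (w.comap (algebraMap K K'))
            (sphMeanC445 y (F p.1 (w.comap (algebraMap K K'))))) p.2)
          = fun p : Ω × G K => sphMean445 Y (pure305 (T p.1) (f₀ p.1) (F p.1)) p.2 :=
        funext fun p => by rw [one_mul, eD p.1 p.2]
      rw [this]
      exact aD1
    · obtain ⟨C, hC, hs⟩ := aU2
      exact ⟨C, hC, fun a h hne => hs a h (by rwa [eU a h] at hne)⟩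
    · obtain ⟨C, hC, hs⟩ := aD2
      exact ⟨C, hC, fun a h hne => hs a h (by rwa [eD a h] at hne)⟩
    · intro h
      show sphMean445 Y' φ h = _
      rw [hφ, aU3 h]
      exact integral_congr_ae (Filter.Eventually.of_forall fun a => (eU a h).symm)
    · intro h
      show sphMean445 Y f h = _
      rw [hf, aD3 h]
      exact integral_congr_ae (Filter.Eventually.of_forall fun a => by
        show _ = (1 : ℂ) * _
        rw [one_mul, eD a h])
  · intro χ C hχ x
    exact hOp' B.R' hB.frame' _ w hwC d hd Y' hY' φ hgood.up_test _ ℓ B.o χ C hχ x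
  · intro χ c C hχ hBC x
    have := hOp B.R hB.frame _ _ hvC d hd Y hY f hgood.dn_test _ 1 (fun _ => B.u) χ c hχ x
    rw [this]
    show c.m (w.comap (algebraMap K K')) d * _ = C.m w d * _
    rw [hBC.2 w d]

end Fermat.Agent.LT.T7.H445

end
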